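import Mathlib.Tactic
import Fermat.Prelude.Def_CuspForm_HeckeAlgebra
import Fermat.Prelude.Def_CuspForm_IntegralStructure
import Fermat.Prelude.Def_FLTPrelim_Modularity
import Fermat.Prelude.Thm_CuspForm_intLattice_fg
import Fermat.Prelude.Thm_CuspForm_mem_intLattice_of_mem_heckeAlgebra
import Fermat.Prelude.Thm_CongruenceSubgroup_one_mem_strictPeriods_Gamma0
import Fermat.Prelude.Thm_ModularForm_sturm_bound_Gamma0
import Fermat.Prelude.Thm_ModularFormClass_qCoeff_heckeT
import Fermat.Prelude.Thm_ModularFormClass_qCoeff_heckeU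
import Fermat.Prelude.Thm_UpperHalfPlane_eq_of_forall_qCoeff_eq

/-!
# Hecke operators on `q`-coefficients

The action of weight `k` Hecke operators on `q`-coefficients, common eigenvectors, and the
normalised eigenform attached to a common eigenvector of weight two.
-/

set_option autoImplicit false

noncomputable section

open scoped IsMulCommutative

namespace Fermat.Agent.HeckeLift

open ModularFormClass CongruenceSubgroup

variable {N : ℕ} {k : ℤ}

/-- `q`-coefficients are additive. -/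
theorem qCoeff_add (f g : CuspForm (Gamma0 N) k) (n : ℕ) :
    qCoeff ⇑(f + g) n = qCoeff ⇑f n + qCoeff ⇑g n := by
  simp only [qCoeff, FunLike.coe_add]
  rw [ModularForm.qExpansion_add one_pos (one_mem_strictPeriods_Gamma0 N) f g, map_add]

/-- `q`-coefficients are homogeneous. -/
theorem qCoeff_smul (c : ℂ) (f : CuspForm (Gamma0 N) k) (n : ℕ) :
    qCoeff ⇑(c • f) n = c * qCoeff ⇑f n := by
  simp only [qCoeff, FunLike.coe_smul]
  rw [ModularForm.qExpansion_smul one_pos (one_mem_strictPeriods_Gamma0 N) c f]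
  simp

/-- The `q`-coefficients of `0` vanish. -/
theorem qCoeff_zero (n : ℕ) : qCoeff ⇑(0 : CuspForm (Gamma0 N) k) n = 0 := by
  have := qCoeff_smul (0 : ℂ) (0 : CuspForm (Gamma0 N) k) n
  simpa using this

theorem qCoeff_neg (f : CuspForm (Gamma0 N) k) (n : ℕ) :
    qCoeff ⇑(-f) n = -qCoeff ⇑f n := by
  have := qCoeff_smul (-1 : ℂ) f n
  simpa using this

/-- `q`-coefficients commute with subtraction. -/
theorem qCoeff_sub (f g : CuspForm (Gamma0 N) k) (n : ℕ) :
    qCoeff ⇑(f - g) n = qCoeff ⇑f n - qCoeff ⇑g n := by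
  rw [sub_eq_add_neg f g, qCoeff_add, qCoeff_neg]; ring

/-- `a_n (T_p f) = a_{np} f + p ^ (k - 1) a_{n/p} f`, the last term only for `p ∣ n`. -/
theorem qCoeff_heckeTLin {p : ℕ} (hp : p.Prime) (hpN : ¬ p ∣ N)
    (f : CuspForm (Gamma0 N) k) (n : ℕ) :
    qCoeff ⇑(CuspForm.heckeTLin k hp hpN f) n =
      qCoeff ⇑f (n * p) + if p ∣ n then (p : ℂ) ^ (k - 1) * qCoeff ⇑f (n / p) else 0 := by
  rw [CuspForm.coe_heckeTLin_apply,
    ModularFormClass.qCoeff_heckeT f (one_mem_strictPeriods_Gamma0 N) hp.ne_zero n,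
    ModularForm.coeffHeckeT_apply]

/-- `a_n (U_q f) = a_{nq} f`. -/
theorem qCoeff_heckeULin [NeZero N] {q : ℕ} (hq : q.Prime) (hqN : q ∣ N)
    (f : CuspForm (Gamma0 N) k) (n : ℕ) :
    qCoeff ⇑(CuspForm.heckeULin k hqN f) n = qCoeff ⇑f (n * q) := by
  rw [CuspForm.coe_heckeULin_apply,
    ModularFormClass.qCoeff_heckeU f (one_mem_strictPeriods_Gamma0 N) hq.ne_zero n]
  rfl

/-- The constant coefficient of a cusp form vanishes. -/
theorem qCoeff_at_zero (f : CuspForm (Gamma0 N) k) [NeZero N] : qCoeff ⇑f 0 = 0 := by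
  have h1 := one_mem_strictPeriods_Gamma0 N
  have : Fact (IsCusp OnePoint.infty
      (Subgroup.map (Matrix.SpecialLinearGroup.mapGL ℝ) (Gamma0 N))) :=
    ⟨Subgroup.isCusp_of_mem_strictPeriods one_pos h1⟩
  exact CuspFormClass.qExpansion_coeff_zero f one_pos h1

/-- A cusp form viewed as a modular form. -/
def toModularForm (f : CuspForm (Gamma0 N) k) : ModularForm (Gamma0 N) k where
  toFun := ⇑f
  slash_action_eq' γ hγ := SlashInvariantFormClass.slash_action_eq f γ hγ
  holo' := CuspFormClass.holo f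
  bdd_at_cusps' hc := ModularFormClass.bdd_at_cusps f hc

/-- A cusp form with vanishing `q`-expansion is zero. -/
theorem eq_zero_of_qCoeff [NeZero N] (f : CuspForm (Gamma0 N) k)
    (h : ∀ n : ℕ, qCoeff ⇑f n = 0) : f = 0 := by
  have hF : toModularForm f = 0 :=
    (ModularForm.qExpansion_eq_zero_iff one_pos (one_mem_strictPeriods_Gamma0 N)
      (toModularForm f)).mp (PowerSeries.ext fun n => by simpa using! h n)
  exact DFunLike.coe_injective (congrArg (fun G : ModularForm (Gamma0 N) k => ⇑G) hF)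

/-- Forms in the integral lattice have integral coefficients. -/
theorem exists_int_qCoeff_of_mem_intLattice {f : CuspForm (Gamma0 N) k}
    (hf : f ∈ CuspForm.intLattice N k) (n : ℕ) : ∃ m : ℤ, qCoeff ⇑f n = (m : ℂ) := by
  induction hf using Submodule.span_induction with
  | mem x hx => exact hx n
  | zero => exact ⟨0, by rw [qCoeff_zero]; simp⟩
  | add x y _ _ hx hy =>
      obtain ⟨a, ha⟩ := hx
      obtain ⟨b, hb⟩ := hy
      exact ⟨a + b, by rw [qCoeff_add, ha, hb]; push_cast; rfl⟩
  | smul c x _ hx =>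
      obtain ⟨a, ha⟩ := hx
      refine ⟨c * a, ?_⟩
      rw [← Int.cast_smul_eq_zsmul ℂ c x, qCoeff_smul, ha]; push_cast; rfl

/-- Forms with integral coefficients lie in the integral lattice. -/
theorem mem_intLattice_of_int_qCoeff {f : CuspForm (Gamma0 N) k}
    (h : ∀ n : ℕ, ∃ m : ℤ, qCoeff ⇑f n = (m : ℂ)) : f ∈ CuspForm.intLattice N k :=
  Submodule.subset_span h

/-- The space of cusp forms of level `Γ₀(N)` is finite dimensional, by the Sturm bound. -/
theorem finiteDimensional_cuspForm [NeZero N] :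
    FiniteDimensional ℂ (CuspForm (Gamma0 N) k) := by
  let B : ℕ := (k * (Gamma0 N).index).toNat / 12
  let L : CuspForm (Gamma0 N) k →ₗ[ℂ] (Fin (B + 1) → ℂ) :=
    { toFun := fun f i => qCoeff ⇑f i
      map_add' := fun f g => funext fun i => qCoeff_add f g i
      map_smul' := fun c f => funext fun i => qCoeff_smul c f i }
  refine FiniteDimensional.of_injective L ((injective_iff_map_eq_zero L).mpr fun f hf => ?_)
  have hF : toModularForm f = 0 := ModularForm.sturm_bound_Gamma0 N (toModularForm f) fun n hn =>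
    congrFun hf ⟨n, Nat.lt_succ_of_le hn⟩
  exact DFunLike.coe_injective (congrArg (fun G : ModularForm (Gamma0 N) k => ⇑G) hF)

/-- A family of commuting operators on a finite dimensional complex vector space has a common
eigenvector in every nonzero invariant subspace. -/
theorem exists_common_eigenvector {V : Type*} [AddCommGroup V] [Module ℂ V]
    [FiniteDimensional ℂ V] (s : Set (Module.End ℂ V))
    (hs : ∀ t ∈ s, ∀ t' ∈ s, Commute t t')
    (W : Submodule ℂ V) (hW0 : W ≠ ⊥) (hW : ∀ t ∈ s, ∀ w ∈ W, t w ∈ W) :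
    ∃ v ∈ W, v ≠ 0 ∧ ∀ t ∈ s, ∃ μ : ℂ, t v = μ • v := by
  classical
  let P : ℕ → Prop := fun d => ∃ W' : Submodule ℂ V, W' ≤ W ∧ W' ≠ ⊥ ∧
    (∀ t ∈ s, ∀ w ∈ W', t w ∈ W') ∧ Module.finrank ℂ W' = d
  have hP : ∃ d, P d := ⟨_, W, le_rfl, hW0, hW, rfl⟩
  obtain ⟨W', hle, hne, hinv, hd⟩ := Nat.find_spec hP
  obtain ⟨v, hv, hv0⟩ := Submodule.exists_mem_ne_zero_of_ne_bot hne
  refine ⟨v, hle hv, hv0, fun t ht => ?_⟩
  have : Nontrivial W' := Submodule.nontrivial_iff_ne_bot.mpr hne
  obtain ⟨μ, hμ⟩ := Module.End.exists_eigenvalue (t.restrict (hinv t ht))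
  obtain ⟨w, hw⟩ := hμ.exists_hasEigenvector
  let W'' : Submodule ℂ V := W' ⊓ Module.End.eigenspace t μ
  have hwmem : (w : V) ∈ W'' := by
    refine ⟨w.2, Module.End.mem_eigenspace_iff.mpr ?_⟩
    simpa using congrArg Subtype.val hw.apply_eq_smul
  have hne'' : W'' ≠ ⊥ := by
    intro h
    rw [h, Submodule.mem_bot] at hwmem
    exact hw.2 (Subtype.ext hwmem)
  have hinv'' : ∀ t' ∈ s, ∀ x ∈ W'', t' x ∈ W'' := by
    rintro t' ht' x ⟨hx1, hx2⟩
    refine ⟨hinv t' ht' x hx1, Module.End.mem_eigenspace_iff.mpr ?_⟩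
    have hc := LinearMap.congr_fun (hs t ht t' ht').eq x
    simp only [Module.End.mul_apply] at hc
    rw [hc, Module.End.mem_eigenspace_iff.mp hx2, map_smul]
  have heq : W'' = W' := by
    refine Submodule.eq_of_le_of_finrank_le inf_le_left ?_
    rw [hd]
    exact Nat.find_min' hP ⟨W'', inf_le_left.trans hle, hne'', hinv'', rfl⟩
  exact ⟨μ, Module.End.mem_eigenspace_iff.mp (heq ▸ hv : v ∈ W'').2⟩

/-- A weight-2 common eigenvector of all `T_p` and `U_q` is a multiple of a normalised eigenform. -/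
theorem exists_normalizedEigenform [NeZero N] (v : CuspForm (Gamma0 N) 2) (hv : v ≠ 0)
    (μ : ℕ → ℂ)
    (hT : ∀ (p : ℕ) (hp : p.Prime) (hpN : ¬ p ∣ N), CuspForm.heckeTLin 2 hp hpN v = μ p • v)
    (hU : ∀ (q : ℕ) (_ : q.Prime) (hqN : q ∣ N), CuspForm.heckeULin 2 hqN v = μ q • v) :
    ∃ g : CuspForm (Gamma0 N) 2, g.IsNormalizedEigenform ∧
      ∀ p : ℕ, p.Prime → qCoeff ⇑g p = μ p := by
  set c : ℕ → ℂ := fun n => qCoeff ⇑v n with hc
  let e : ℕ → ℂ := fun p => if p ∣ N then 0 else (p : ℂ)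
  have key : ∀ p : ℕ, p.Prime → ∀ n : ℕ,
      c (n * p) + (if p ∣ n then e p * c (n / p) else 0) = μ p * c n := by
    intro p hp n
    by_cases hpN : p ∣ N
    · have h := congrArg (fun f : CuspForm (Gamma0 N) 2 => qCoeff ⇑f n) (hU p hp hpN)
      simp only [qCoeff_heckeULin hp hpN, qCoeff_smul] at h
      simp [e, hpN, hc, h]
    · have h := congrArg (fun f : CuspForm (Gamma0 N) 2 => qCoeff ⇑f n) (hT p hp hpN)
      simp only [qCoeff_heckeTLin hp hpN, qCoeff_smul, show (2 : ℤ) - 1 = 1 by norm_num,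
        zpow_one] at h
      simp [e, hpN, hc, h]
  have hc0 : c 0 = 0 := qCoeff_at_zero v
  have hc1 : c 1 ≠ 0 := by
    intro h1
    refine hv (eq_zero_of_qCoeff v fun n => ?_)
    induction n using Nat.strong_induction_on with
    | _ n ih =>
      rcases Nat.lt_or_ge n 2 with h2 | h2
      · interval_cases n
        · exact hc0
        · exact h1
      · obtain ⟨p, hp, m, rfl⟩ := Nat.exists_prime_and_dvd (by omega : n ≠ 1)
        have hm : m ≠ 0 := by rintro rfl; simp at h2
        have hlt : m < p * m := lt_mul_of_one_lt_left (Nat.pos_of_ne_zero hm) hp.one_lt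
        have hk := key p hp m
        rw [show c m = 0 from ih m hlt, mul_zero, mul_comm m p] at hk
        rcases (Decidable.em (p ∣ m)) with hd | hd
        · rw [if_pos hd, show c (m / p) = 0 from
            ih (m / p) (lt_of_le_of_lt (Nat.div_le_self _ _) hlt), mul_zero, add_zero] at hk
          exact hk
        · rw [if_neg hd, add_zero] at hk
          exact hk
  refine ⟨(c 1)⁻¹ • v, ?_, fun p hp => ?_⟩
  swap
  · have hk := key p hp 1
    rw [one_mul, if_neg hp.not_dvd_one, add_zero] at hk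
    rw [qCoeff_smul]
    change (c 1)⁻¹ * c p = μ p
    rw [hk]; field_simp
  have hp1 : ∀ p : ℕ, p.Prime → c p = μ p * c 1 := fun p hp => by
    have hk := key p hp 1
    rwa [one_mul, if_neg hp.not_dvd_one, add_zero] at hk
  have hmul : ∀ m n : ℕ, m.Coprime n → c (m * n) * c 1 = c m * c n := by
    intro m
    induction m using Nat.strong_induction_on with
    | _ m ih =>
      intro n hmn
      rcases Nat.lt_or_ge m 2 with h2 | h2
      · interval_cases m
        · simp only [Nat.coprime_zero_left] at hmn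
          simp [hc0]
        · rw [one_mul, mul_comm]
      · obtain ⟨p, hp, d, rfl⟩ := Nat.exists_prime_and_dvd (by omega : m ≠ 1)
        have hd0 : d ≠ 0 := by rintro rfl; simp at h2
        have hlt : d < p * d := lt_mul_of_one_lt_left (Nat.pos_of_ne_zero hd0) hp.one_lt
        have hpn : ¬ p ∣ n :=
          (Nat.Prime.coprime_iff_not_dvd hp).mp (Nat.Coprime.coprime_mul_right hmn)
        have hdn : d.Coprime n := Nat.Coprime.coprime_mul_left hmn
        have h1 := key p hp (d * n)
        have h2 := key p hp d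
        have h3 := ih d hlt n hdn
        rw [show d * n * p = p * d * n by ring] at h1
        rw [mul_comm d p] at h2
        by_cases hpd : p ∣ d
        · have hdiv : d * n / p = d / p * n := Nat.div_mul_right_comm hpd n |>.symm
          have h4 := ih (d / p) (lt_of_le_of_lt (Nat.div_le_self _ _) hlt) n
            (hdn.coprime_dvd_left (Nat.div_dvd_of_dvd hpd))
          rw [if_pos (dvd_mul_of_dvd_left hpd n), hdiv] at h1
          rw [if_pos hpd] at h2
          linear_combination c 1 * h1 - c n * h2 + μ p * h3 - e p * h4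
        · have hnd : ¬ p ∣ d * n := fun h => (hp.dvd_mul.mp h).elim hpd hpn
          rw [if_neg hnd, add_zero] at h1
          rw [if_neg hpd, add_zero] at h2
          linear_combination c 1 * h1 - c n * h2 + μ p * h3
  have hrec : ∀ p r : ℕ, p.Prime →
      c (p ^ (r + 2)) + e p * c (p ^ r) = μ p * c (p ^ (r + 1)) := by
    intro p r hp
    have h := key p hp (p ^ (r + 1))
    rwa [← pow_succ, if_pos (dvd_pow_self p (Nat.succ_ne_zero r)), pow_succ p r,
      Nat.mul_div_cancel _ hp.pos, ← pow_succ] at h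
  constructor
  · rw [qCoeff_smul]
    exact inv_mul_cancel₀ hc1
  · intro m n hmn
    rw [qCoeff_smul, qCoeff_smul, qCoeff_smul]
    change (c 1)⁻¹ * c (m * n) = (c 1)⁻¹ * c m * ((c 1)⁻¹ * c n)
    have := hmul m n hmn
    field_simp
    linear_combination this
  · intro p r hp hpN
    have h := hrec p r hp
    rw [show e p = (p : ℂ) from if_neg hpN] at h
    rw [qCoeff_smul, qCoeff_smul, qCoeff_smul, qCoeff_smul]
    change (c 1)⁻¹ * c (p ^ (r + 2)) =
      (c 1)⁻¹ * c p * ((c 1)⁻¹ * c (p ^ (r + 1))) - p * ((c 1)⁻¹ * c (p ^ r))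
    rw [hp1 p hp]
    field_simp
    linear_combination h
  · intro p r hp hpN
    have h := hrec p r hp
    rw [show e p = (0 : ℂ) from if_pos hpN, zero_mul, add_zero] at h
    rw [qCoeff_smul, qCoeff_smul, qCoeff_smul]
    change (c 1)⁻¹ * c (p ^ (r + 2)) = (c 1)⁻¹ * c p * ((c 1)⁻¹ * c (p ^ (r + 1)))
    rw [hp1 p hp, h]
    field_simp

end Fermat.Agent.HeckeLift
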