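import Fermat.Agent.HeckeLift.Basic

/-!
# The Deligne–Serre lifting lemma

For forms on `Γ₀(N)` with an integral structure: every prime ideal of the Hecke algebra contains the
kernel of the eigencharacter of a common eigenvector, and in weight two every maximal ideal is the
pull-back of a maximal ideal of the algebraic integers along the eigencharacter of a normalised
eigenform.
-/

set_option autoImplicit false

noncomputable section

open scoped IsMulCommutative

namespace Fermat.Agent.HeckeLift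

open ModularFormClass CongruenceSubgroup

variable {N : ℕ} [NeZero N]

/-- Every element of the Hecke algebra is integral over `ℤ` once the forms have an integral
structure. -/
theorem heckeAlgebra_isIntegral {k : ℤ} (hk : 1 ≤ k) {S : Set ℕ}
    (hint : CuspForm.HasIntegralStructure N k) :
    Algebra.IsIntegral ℤ (CuspForm.heckeAlgebra N k S) := by
  have : Module.Finite ℤ (CuspForm.intLattice N k) :=
    Module.Finite.iff_fg.mpr (CuspForm.intLattice_fg N k)
  let res : CuspForm.heckeAlgebra N k S →+* Module.End ℤ (CuspForm.intLattice N k) :=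
    { toFun := fun t => LinearMap.restrict
        ((t : Module.End ℂ (CuspForm (Gamma0 N) k)).restrictScalars ℤ)
        (fun _f hf => CuspForm.mem_intLattice_of_mem_heckeAlgebra hk t.2 hf)
      map_one' := LinearMap.ext fun _ => Subtype.ext rfl
      map_mul' := fun _ _ => LinearMap.ext fun _ => Subtype.ext rfl
      map_zero' := LinearMap.ext fun _ => Subtype.ext rfl
      map_add' := fun _ _ => LinearMap.ext fun _ => Subtype.ext rfl }
  have hinj : Function.Injective res.toIntAlgHom := by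
    refine (injective_iff_map_eq_zero _).mpr fun t ht => Subtype.ext (LinearMap.ext_on hint ?_)
    intro f hf
    exact congrArg Subtype.val (LinearMap.congr_fun ht ⟨f, hf⟩)
  exact ⟨fun t => (isIntegral_algHom_iff res.toIntAlgHom hinj).mp
    (Algebra.IsIntegral.isIntegral _)⟩

/-- Every prime ideal of the Hecke algebra contains the kernel of the eigencharacter of some
nonzero common eigenvector. -/
theorem exists_eigencharacter_ker_le {k : ℤ}
    (𝔪 : Ideal (CuspForm.heckeAlgebra N k ∅)) [h𝔪 : 𝔪.IsPrime] :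
    ∃ (v : CuspForm (Gamma0 N) k) (χ : CuspForm.heckeAlgebra N k ∅ →+* ℂ), v ≠ 0 ∧
      (∀ t : CuspForm.heckeAlgebra N k ∅,
        (t : Module.End ℂ (CuspForm (Gamma0 N) k)) v = χ t • v) ∧
      RingHom.ker χ ≤ 𝔪 := by
  classical
  have := finiteDimensional_cuspForm (N := N) (k := k)
  let A := CuspForm.heckeAlgebra N k ∅
  let R : A → Submodule ℂ (CuspForm (Gamma0 N) k) := fun t =>
    LinearMap.range (t : Module.End ℂ (CuspForm (Gamma0 N) k))
  let P : ℕ → Prop := fun d => ∃ t : A, t ∉ 𝔪 ∧ Module.finrank ℂ (R t) = d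
  have hP : ∃ d, P d := ⟨_, 1, fun h => h𝔪.ne_top ((Ideal.eq_top_iff_one _).mpr h), rfl⟩
  obtain ⟨t₀, ht₀, hd⟩ := Nat.find_spec hP
  have hne : R t₀ ≠ ⊥ := by
    intro h
    apply ht₀
    have : t₀ = 0 := Subtype.ext (LinearMap.range_eq_bot.mp h)
    rw [this]; exact 𝔪.zero_mem
  have hcomm : ∀ t t' : A, Commute (t : Module.End ℂ (CuspForm (Gamma0 N) k)) t' := fun t t' =>
    congrArg Subtype.val (mul_comm t t')
  have hinv : ∀ t ∈ (A : Set (Module.End ℂ (CuspForm (Gamma0 N) k))), ∀ w ∈ R t₀, t w ∈ R t₀ := by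
    rintro t ht _ ⟨x, rfl⟩
    exact ⟨t x, (LinearMap.congr_fun (hcomm ⟨t, ht⟩ t₀).eq x).symm⟩
  have hsurj : ∀ t : A, t ∉ 𝔪 →
      ∀ y ∈ R t₀, ∃ x ∈ R t₀, (t : Module.End ℂ (CuspForm (Gamma0 N) k)) x = y := by
    intro t ht
    have hle : R (t * t₀) ≤ R t₀ := by
      rintro _ ⟨x, rfl⟩
      exact hinv t t.2 _ ⟨x, rfl⟩
    have hmem : t * t₀ ∉ 𝔪 := fun h => (h𝔪.mem_or_mem h).elim ht ht₀
    have heq : R (t * t₀) = R t₀ := Submodule.eq_of_le_of_finrank_le hle
      (hd ▸ Nat.find_min' hP ⟨t * t₀, hmem, rfl⟩)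
    intro y hy
    rw [← heq] at hy
    obtain ⟨x, rfl⟩ := hy
    exact ⟨_, ⟨x, rfl⟩, rfl⟩
  obtain ⟨v, hvW, hv0, hv⟩ := exists_common_eigenvector (A : Set _)
    (fun t ht t' ht' => hcomm ⟨t, ht⟩ ⟨t', ht'⟩) (R t₀) hne hinv
  choose μ hμ using hv
  have hμ' : ∀ t : A, (t : Module.End ℂ (CuspForm (Gamma0 N) k)) v = μ t t.2 • v := fun t =>
    hμ t t.2
  have huniq : ∀ a b : ℂ, a • v = b • v → a = b := fun a b h => smul_left_injective ℂ hv0 h
  let χ : A →+* ℂ :=
    { toFun := fun t => μ t t.2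
      map_one' := huniq _ _ ((hμ' 1).symm.trans (one_smul ℂ v).symm)
      map_mul' := fun s t => huniq _ _ ((hμ' (s * t)).symm.trans (by
        rw [MulMemClass.coe_mul, Module.End.mul_apply, hμ' t, map_smul, hμ' s, smul_smul,
          mul_comm]))
      map_zero' := huniq _ _ ((hμ' 0).symm.trans (zero_smul ℂ v).symm)
      map_add' := fun s t => huniq _ _ ((hμ' (s + t)).symm.trans (by
        rw [AddMemClass.coe_add, LinearMap.add_apply, hμ' s, hμ' t, add_smul])) }
  refine ⟨v, χ, hv0, hμ', fun t ht => ?_⟩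
  by_contra htm
  -- `t` is surjective, hence injective, on `R t₀`, but kills `v`.
  let tW : R t₀ →ₗ[ℂ] R t₀ :=
    (t : Module.End ℂ (CuspForm (Gamma0 N) k)).restrict (hinv t t.2)
  have hs : Function.Surjective tW := fun y => by
    obtain ⟨x, hx, hxy⟩ := hsurj t htm y y.2
    exact ⟨⟨x, hx⟩, Subtype.ext hxy⟩
  have hi : Function.Injective tW := LinearMap.injective_iff_surjective.mpr hs
  have : tW ⟨v, hvW⟩ = tW 0 := by
    rw [map_zero]
    apply Subtype.ext
    change (t : Module.End ℂ (CuspForm (Gamma0 N) k)) v = 0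
    rw [hμ' t, show μ t t.2 = 0 from ht, zero_smul]
  exact hv0 (congrArg Subtype.val (hi this))

/-- Deligne–Serre lifting: a maximal ideal of the weight-2 Hecke algebra is the pull-back of a
maximal ideal of the algebraic integers along the eigencharacter of a normalised eigenform. -/
theorem exists_eigenform_of_maximal (hint : CuspForm.HasIntegralStructure N 2)
    (𝔪 : Ideal (CuspForm.heckeAlgebra N 2 ∅)) [h𝔪 : 𝔪.IsMaximal] :
    ∃ (g : CuspForm (Gamma0 N) 2) (_ : g.IsNormalizedEigenform)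
      (ψ : CuspForm.heckeAlgebra N 2 ∅ →+* integralClosure ℤ ℂ)
      (𝔪' : Ideal (integralClosure ℤ ℂ)),
      𝔪'.IsMaximal ∧ 𝔪'.comap ψ = 𝔪 ∧
      (∀ (p : ℕ) (hp : p.Prime) (hpN : ¬ p ∣ N),
        (ψ (CuspForm.heckeAlgebra.T hp hpN (Set.notMem_empty p)) : ℂ) = qCoeff ⇑g p) ∧
      ∀ (q : ℕ) (hq : q.Prime) (hqN : q ∣ N),
        (ψ (CuspForm.heckeAlgebra.U hq hqN (Set.notMem_empty q)) : ℂ) = qCoeff ⇑g q := by
  classical
  have hI := heckeAlgebra_isIntegral (S := ∅) one_le_two hint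
  obtain ⟨v, χ, hv0, hvχ, hker⟩ := exists_eigencharacter_ker_le 𝔪
  let μ : ℕ → ℂ := fun p =>
    if hp : p.Prime then
      if hpN : p ∣ N then χ (CuspForm.heckeAlgebra.U hp hpN (Set.notMem_empty p))
      else χ (CuspForm.heckeAlgebra.T hp hpN (Set.notMem_empty p))
    else 0
  obtain ⟨g, hg, hgμ⟩ := exists_normalizedEigenform v hv0 μ
    (fun p hp hpN => by
      have := hvχ (CuspForm.heckeAlgebra.T hp hpN (Set.notMem_empty p))
      simpa [μ, hp, hpN] using this)
    (fun q hq hqN => by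
      have := hvχ (CuspForm.heckeAlgebra.U hq hqN (Set.notMem_empty q))
      simpa [μ, hq, hqN] using this)
  let ψ : CuspForm.heckeAlgebra N 2 ∅ →+* integralClosure ℤ ℂ :=
    (χ.toIntAlgHom.codRestrict (integralClosure ℤ ℂ)
      fun t => (hI.isIntegral t).map χ.toIntAlgHom).toRingHom
  have hψ : ∀ t, (ψ t : ℂ) = χ t := fun t => rfl
  let : Algebra (CuspForm.heckeAlgebra N 2 ∅) (integralClosure ℤ ℂ) := ψ.toAlgebra
  have : Algebra.IsIntegral (CuspForm.heckeAlgebra N 2 ∅) (integralClosure ℤ ℂ) := by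
    have : IsScalarTower ℤ (CuspForm.heckeAlgebra N 2 ∅) (integralClosure ℤ ℂ) :=
      IsScalarTower.of_algebraMap_eq fun x => (map_intCast ψ x).symm
    exact ⟨fun x => (Algebra.IsIntegral.isIntegral (R := ℤ) x).tower_top⟩
  obtain ⟨Q, hQ, hQc⟩ := Ideal.exists_ideal_over_maximal_of_isIntegral
    (S := integralClosure ℤ ℂ) 𝔪 (fun t ht => hker (by
      change χ t = 0
      rw [← hψ, show ψ t = 0 from ht]; rfl))
  refine ⟨g, hg, ψ, Q, hQ, hQc, fun p hp hpN => ?_, fun q hq hqN => ?_⟩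
  · rw [hψ, hgμ p hp]; simp [μ, hp, hpN]
  · rw [hψ, hgμ q hq]; simp [μ, hq, hqN]

end Fermat.Agent.HeckeLift
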